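import Mathlib
import Fermat.Agent.MU.Lib.VarChange.Point

section MergeWrap_Lib_VarChange_BaseChange -- from Lib/VarChange/BaseChange.lean

/-!
# Change of variables over a base field: the Galois-equivariant homomorphism on points

`W₁`, `W₂` Weierstrass curves over a field `F` with `C • W₁ = W₂`, `K / F` a field extension.
`vcHomBC C hC : (W₁⁄K).Point →+ (W₂⁄K).Point` is an injective group homomorphism which commutes
with `Point.map f` for every `F`-algebra endomorphism `f` of `K`.
-/

set_option autoImplicit false
set_option linter.unusedSectionVars false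

namespace Fermat.Agent.VarChange

open WeierstrassCurve WeierstrassCurve.Affine

variable {F K : Type*} [Field F] [Field K] [Algebra F K] [DecidableEq K]
variable {W₁ W₂ : WeierstrassCurve F} (C : VariableChange F) (hC : C • W₁ = W₂)

include hC in
theorem vc_baseChange_eq :
    (Affine.baseChange W₁ K : Affine K) =
      ((C⁻¹).baseChange K) • (Affine.baseChange W₂ K : Affine K) := by
  change W₁.map (algebraMap F K) = (C⁻¹).map (algebraMap F K) • W₂.map (algebraMap F K)
  rw [map_variableChange, ← hC, inv_smul_smul]

/-- The homomorphism on `K`-points induced by a change of variables over `F`. -/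
noncomputable def vcHomBC : (W₁⁄K).Point →+ (W₂⁄K).Point :=
  vcHom ((C⁻¹).baseChange K) (vc_baseChange_eq C hC)

theorem vcHomBC_injective : Function.Injective (vcHomBC (K := K) C hC) :=
  vcHom_injective _ _

theorem vcX_baseChange_map (D : VariableChange F) (f : K →ₐ[F] K) (x : K) :
    f (vcX (D.baseChange K) x) = vcX (D.baseChange K) (f x) := by
  simp only [vcX, VariableChange.baseChange, VariableChange.map_u, VariableChange.map_r,
    Units.coe_map, MonoidHom.coe_coe, map_add, map_mul, map_pow, AlgHom.commutes]

theorem vcY_baseChange_map (D : VariableChange F) (f : K →ₐ[F] K) (x y : K) :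
    f (vcY (D.baseChange K) x y) = vcY (D.baseChange K) (f x) (f y) := by
  simp only [vcY, VariableChange.baseChange, VariableChange.map_u, VariableChange.map_s,
    VariableChange.map_t, Units.coe_map, MonoidHom.coe_coe, map_add, map_mul, map_pow,
    AlgHom.commutes]

theorem vcHomBC_map (f : K →ₐ[F] K) (P : (W₁⁄K).Point) :
    vcHomBC C hC (Point.map f P) = Point.map f (vcHomBC C hC P) := by
  rcases P with _ | ⟨x, y, h⟩
  · rfl
  · change vcFun ((C⁻¹).baseChange K) (vc_baseChange_eq C hC) (Point.map f (Point.some x y h)) =
      Point.map f (vcFun ((C⁻¹).baseChange K) (vc_baseChange_eq C hC) (Point.some x y h))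
    rw [Point.map_some, vcFun_some, vcFun_some, Point.map_some]
    simp only [Point.some.injEq]
    exact ⟨(vcX_baseChange_map _ f x).symm, (vcY_baseChange_map _ f x y).symm⟩

end Fermat.Agent.VarChange
end MergeWrap_Lib_VarChange_BaseChange
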